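import Fermat.Agent.S41.CSP.Main

/-! # S41 / CSP : CSP-lite for homomorphisms to a commutative group of exponent `p` -/

namespace Fermat.Agent.S41.CSP

open Matrix CongruenceSubgroup
open scoped MatrixGroups

/-- linear functionals separate points of a vector space over `ZMod p`. -/
theorem exists_dual_ne_aux (p : ℕ) [Fact p.Prime] {B : Type*} [AddCommGroup B] [Module (ZMod p) B]
    {b : B} (hb : b ≠ 0) : ∃ f : B →ₗ[ZMod p] ZMod p, f b ≠ 0 := by
  by_contra hcon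
  push Not at hcon
  exact hb ((Module.forall_dual_apply_eq_zero_iff (ZMod p) b).mp hcon)

/-- additive characters separate points of an elementary abelian `p`-group. -/
theorem exists_addHom_ne {B : Type*} [AddCommGroup B] (p : ℕ) [Fact p.Prime] (hB : ∀ b : B, p • b = 0)
    {b : B} (hb : b ≠ 0) : ∃ lam : B →+ ZMod p, lam b ≠ 0 := by
  let _ : Module (ZMod p) B := AddCommGroup.zmodModule hB
  obtain ⟨f, hf⟩ := exists_dual_ne_aux p hb
  exact ⟨LinearMap.toAddMonoidHom f, hf⟩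

/-- **CSP-lite**, homomorphism form. -/
theorem csp_lite_hom {A : Type*} [CommGroup A] {N q p : ℕ} (hN : 0 < N) (hq : q.Prime)
    (hqN : Nat.Coprime q N) (hp : p.Prime) (hp2 : p ≠ 2) (hA : ∀ a : A, a ^ p = 1)
    (χ : Gamma0 N →* A)
    (hu : ∀ γ : Gamma0 N, (γ : SL(2, ℤ)) = uMat 1 → χ γ = 1)
    (hl : ∀ γ : Gamma0 N, (γ : SL(2, ℤ)) = lMat N → χ γ = 1)
    (hR : ∀ γ δ : Gamma0 N, (δ : SL(2, ℤ)) 0 0 = (γ : SL(2, ℤ)) 0 0 →
      (δ : SL(2, ℤ)) 1 1 = (γ : SL(2, ℤ)) 1 1 →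
      (δ : SL(2, ℤ)) 0 1 = (q : ℤ) ^ 2 * (γ : SL(2, ℤ)) 0 1 →
      (γ : SL(2, ℤ)) 1 0 = (q : ℤ) ^ 2 * (δ : SL(2, ℤ)) 1 0 → χ γ = χ δ) :
    ∀ γ : Gamma0 N, (γ : SL(2, ℤ)) ∈ Gamma1 N → χ γ = 1 := by
  classical
  have : Fact p.Prime := ⟨hp⟩
  intro γ hγ
  by_contra hne
  have hne' : Additive.ofMul (χ γ) ≠ 0 := fun h => hne (Additive.ofMul.injective h)
  obtain ⟨lam, hlam⟩ : ∃ lam : Additive A →+ ZMod p, lam (Additive.ofMul (χ γ)) ≠ 0 :=
    exists_addHom_ne p (fun a => congrArg Additive.ofMul (hA (Additive.toMul a))) hne'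
  let X : PhiAx (ZMod p) N q :=
    { Φ := fun g => if h : g ∈ Gamma0 N then lam (Additive.ofMul (χ ⟨g, h⟩)) else 0
      mul := by
        intro g d hg hd
        have hgd : g * d ∈ Gamma0 N := mul_mem hg hd
        simp only [dif_pos hg, dif_pos hd, dif_pos hgd]
        have : (⟨g * d, hgd⟩ : Gamma0 N) = ⟨g, hg⟩ * ⟨d, hd⟩ := rfl
        rw [this, map_mul, ofMul_mul, map_add]
      hu := by
        have h1 : uMat 1 ∈ Gamma0 N := uMat_mem 1
        simp only [dif_pos h1]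
        rw [hu ⟨uMat 1, h1⟩ rfl]; simp
      hl := by
        have h1 : lMat N ∈ Gamma0 N := lMat_mem (dvd_refl _)
        simp only [dif_pos h1]
        rw [hl ⟨lMat N, h1⟩ rfl]; simp
      hR := by
        intro g d hg hd h00 h11 h01 h10
        simp only [dif_pos hg, dif_pos hd]
        rw [hR ⟨g, hg⟩ ⟨d, hd⟩ h00 h11 h01 h10] }
  have h0 := csp_lite X hN hq hqN p hp hp2 (γ : SL(2, ℤ)) hγ
  have h1 : X.Φ (γ : SL(2, ℤ)) = lam (Additive.ofMul (χ γ)) := by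
    show (if h : (γ : SL(2, ℤ)) ∈ Gamma0 N then lam (Additive.ofMul (χ ⟨γ, h⟩)) else 0) = _
    rw [dif_pos γ.2]
  exact hlam (h1 ▸ h0)

end Fermat.Agent.S41.CSP
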