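import Fermat.Agent.S41.CSP.End
import Fermat.Agent.S41.CSP.Mat.A4
import Fermat.Agent.S41.CSP.Mat.A5

/-! # S41 / CSP : CSP-lite (Ihara's lemma, group theoretic form) -/

namespace Fermat.Agent.S41.CSP

open Matrix CongruenceSubgroup
open scoped MatrixGroups

variable {k : Type*} [Field k] {N q : ℕ}

/-- the abstract symbol of `Φ`. -/
noncomputable def PhiAx.toSym (X : PhiAx k N q) (hq : q.Prime) (hqN : Nat.Coprime q N) : SymAx k N q where
  S := X.S
  τ := X.S N ((q : ℤ) ^ 2)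
  a1 := X.a1
  a2 := X.a2
  a3 := X.a3
  a4 := X.a4 hq hqN
  a5 := X.a5

/-- **CSP-lite.**  A homomorphism `Φ : Γ₀(N) → (k,+)`, `char k = p` odd, killing `u(1)`, `l(N)` and invariant under
conjugation by `diag(q²,1)` (where defined) kills `Γ₁(N)`. -/
theorem csp_lite (X : PhiAx k N q) (hN : 0 < N) (hq : q.Prime) (hqN : Nat.Coprime q N)
    (p : ℕ) [CharP k p] (hp : p.Prime) (hp2 : p ≠ 2) (γ : SL(2, ℤ)) (hγ : γ ∈ Gamma1 N) : X.Φ γ = 0 := by
  have h := (Gamma1_mem N γ).mp hγ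
  have h0 : γ ∈ Gamma0 N := Gamma0_mem.mpr h.2.2
  rw [← X.S_eq h0]
  refine (X.toSym hq hqN).eq_zero hN hq hqN p hp hp2 _ _ (mem_Gamma0_iff.mp h0) ?_ ?_
  · exact ⟨γ 1 1, - γ 0 1, by have := det2 γ; linarith⟩
  · have := h.1
    rw [← ZMod.intCast_zmod_eq_zero_iff_dvd]
    push_cast
    rw [this, sub_self]

end Fermat.Agent.S41.CSP
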