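import Mathlib

/-!
# S41 / CSP : the group algebra trick (step GROUP ALGEBRA of report 385)
-/

namespace Fermat.Agent.S41.CSP

open scoped BigOperators

/-- **Group algebra trick.** `G` a finite commutative group of order invertible in the field `k`,
`f : G → k`.  Suppose `(ρ - 1)(z⁻¹ - 1) f = 0` for all pairs `(z, ρ)` with `P z ρ`, and that every proper
subgroup `H` of `G` misses both coordinates of some pair.  Then `f` is constant.

PROOF.  `R := MonoidAlgebra k G` (commutative ring) acts on `G → k` through translations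
`(y • f) t = f (t * y)` (e.g. `A := MonoidAlgebra.lift k G (Module.End k (G → k)) T`, `T y f = fun t => f (t*y)`).
`e := (card G)⁻¹ • ∑ y, of y`.  `y * e = e`, so `A e f` is the constant function `(card G)⁻¹ ∑ f`, and it is
enough to show `A (1 - e) f = 0` (then `f = A e f` is constant).  Suppose not.
`I := {a : R | A (a * (1 - e)) f = 0}` is an ideal, `1 ∉ I`, `e ∈ I` (as `e * (1 - e) = 0`), and
`(of ρ - 1) * (of z⁻¹ - 1) ∈ I` when `P z ρ`.  Take a maximal ideal `𝔪 ⊇ I` (`Ideal.exists_le_maximal`),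
`K := R ⧸ 𝔪` a field, `ψ y := mk (of y)`, `H := {y | ψ y = 1}` a subgroup.  `H ≠ ⊤`: otherwise
`mk e = (card G)⁻¹ * card G = 1 ≠ 0`.  For the pair given by `hH`: `(ψ ρ - 1) * (ψ z⁻¹ - 1) = 0` in a field,
contradiction with `ρ ∉ H`, `z ∉ H`. -/
theorem const_of_rel {G : Type} [CommGroup G] [Fintype G] {k : Type*} [Field k]
    (hn : (Fintype.card G : k) ≠ 0) (f : G → k) (P : G → G → Prop)
    (hP : ∀ z ρ, P z ρ → ∀ t, f (t * ρ) - f (t * ρ * z⁻¹) = f t - f (t * z⁻¹))
    (hH : ∀ H : Subgroup G, H ≠ ⊤ → ∃ z ρ, P z ρ ∧ z ∉ H ∧ ρ ∉ H) :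
    ∀ t, f t = f 1 := by
  classical
  set c : k := (Fintype.card G : k)⁻¹ with hc
  set S : k := ∑ y, f y with hS
  set g : G → k := fun t => f t - c * S with hg
  suffices hg0 : g = 0 by
    intro t
    have h1 : f t - c * S = 0 := congrFun hg0 t
    have h2 : f 1 - c * S = 0 := congrFun hg0 1
    rw [sub_eq_zero.1 h1, sub_eq_zero.1 h2]
  by_contra hne
  let T : G →* Module.End k (G → k) :=
    { toFun := fun y => LinearMap.funLeft k k (fun t => t * y)
      map_one' := by
        ext h t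
        simp [LinearMap.funLeft_apply]
      map_mul' := by
        intro y₁ y₂
        apply LinearMap.ext
        intro h
        funext t
        simp [LinearMap.funLeft_apply, mul_assoc] }
  have hT : ∀ (y : G) (h : G → k) (t : G), T y h t = h (t * y) := fun y h t => rfl
  let A := MonoidAlgebra.lift k (Module.End k (G → k)) G T
  have hA : ∀ y : G, A (MonoidAlgebra.of k G y) = T y := fun y => MonoidAlgebra.lift_of T y
  let I : Ideal (MonoidAlgebra k G) :=
    { carrier := {a | A a g = 0}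
      add_mem' := by
        intro a b ha hb
        simp only [Set.mem_ofPred_eq] at ha hb ⊢
        rw [map_add, LinearMap.add_apply, ha, hb, add_zero]
      zero_mem' := by
        simp only [Set.mem_ofPred_eq]
        rw [map_zero, LinearMap.zero_apply]
      smul_mem' := by
        intro a b hb
        simp only [Set.mem_ofPred_eq] at hb ⊢
        rw [smul_eq_mul, map_mul, Module.End.mul_apply, hb, map_zero] }
  have hI : ∀ a, a ∈ I ↔ A a g = 0 := fun a => Iff.rfl
  have h1I : I ≠ ⊤ := by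
    rw [Ideal.ne_top_iff_one, hI, map_one]
    exact hne
  have hsI : (∑ y, MonoidAlgebra.of k G y) ∈ I := by
    rw [hI, map_sum]
    funext t
    rw [LinearMap.sum_apply, Finset.sum_apply]
    simp only [hA, hT, Pi.zero_apply]
    have hsum : ∑ x, g (t * x) = ∑ x, g x := Equiv.sum_comp (Equiv.mulLeft t) g
    rw [hsum]
    simp only [hg]
    rw [Finset.sum_sub_distrib, Finset.sum_const, Finset.card_univ, nsmul_eq_mul, ← hS, hc,
      ← mul_assoc, mul_inv_cancel₀ hn, one_mul, sub_self]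
  have hrel : ∀ z ρ, P z ρ →
      (MonoidAlgebra.of k G ρ - 1) * (MonoidAlgebra.of k G z⁻¹ - 1) ∈ I := by
    intro z ρ hzρ
    rw [hI, map_mul, map_sub, map_sub, map_one, hA, hA]
    funext t
    simp only [Module.End.mul_apply, LinearMap.sub_apply, Module.End.one_apply, Pi.sub_apply, hT,
      Pi.zero_apply]
    have := hP z ρ hzρ t
    simp only [hg]
    linear_combination -this
  obtain ⟨𝔪, hmax, hle⟩ := Ideal.exists_le_maximal I h1I
  let _ : Field (MonoidAlgebra k G ⧸ 𝔪) := Ideal.Quotient.field 𝔪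
  let ψ : G →* (MonoidAlgebra k G ⧸ 𝔪) :=
    ((Ideal.Quotient.mk 𝔪 : MonoidAlgebra k G →+* _) : MonoidAlgebra k G →* _).comp
      (MonoidAlgebra.of k G)
  have hψ : ∀ y, ψ y = Ideal.Quotient.mk 𝔪 (MonoidAlgebra.of k G y) := fun y => rfl
  have hHne : ψ.ker ≠ ⊤ := by
    intro htop
    have h1 : ∀ y, ψ y = 1 := fun y => by
      have : y ∈ ψ.ker := by rw [htop]; exact Subgroup.mem_top y
      exact MonoidHom.mem_ker.1 this
    have h2 : Ideal.Quotient.mk 𝔪 (∑ y, MonoidAlgebra.of k G y) = 0 :=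
      Ideal.Quotient.eq_zero_iff_mem.2 (hle hsI)
    rw [map_sum] at h2
    simp only [← hψ, h1] at h2
    rw [Finset.sum_const, Finset.card_univ, nsmul_eq_mul, mul_one] at h2
    let φ : k →+* (MonoidAlgebra k G ⧸ 𝔪) :=
      (Ideal.Quotient.mk 𝔪).comp (algebraMap k (MonoidAlgebra k G))
    have h3 : φ (Fintype.card G : k) = 0 := by rw [map_natCast, h2]
    exact hn ((map_eq_zero φ).1 h3)
  obtain ⟨z, ρ, hzρ, hz, hρ⟩ := hH ψ.ker hHne
  have h4 : Ideal.Quotient.mk 𝔪
      ((MonoidAlgebra.of k G ρ - 1) * (MonoidAlgebra.of k G z⁻¹ - 1)) = 0 :=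
    Ideal.Quotient.eq_zero_iff_mem.2 (hle (hrel z ρ hzρ))
  rw [map_mul, map_sub, map_sub, map_one, ← hψ, ← hψ] at h4
  rcases mul_eq_zero.1 h4 with h5 | h5
  · exact hρ (MonoidHom.mem_ker.2 (sub_eq_zero.1 h5))
  · have : z⁻¹ ∈ ψ.ker := MonoidHom.mem_ker.2 (sub_eq_zero.1 h5)
    exact hz (by simpa using ψ.ker.inv_mem this)

end Fermat.Agent.S41.CSP
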