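import Fermat.Agent.S41.CSP.Inv.Fun
import Fermat.Agent.S41.CSP.Pigeon.Main
import Fermat.Agent.S41.CSP.Char

/-! # S41 / CSP : `f` vanishes -/

namespace Fermat.Agent.S41.CSP

variable {k : Type*} [Field k] {N q : ℕ}

/-- PROOF.  `Q := QQ N q`, `1 < Q` (`q ≥ 2`, exponent `> 0` as `N > 0`), `Q² < r`, so `Q`, `Q²` are units mod `r` and `1, Q, Q²` are distinct
in `F_r` (natural numbers `< r`).  `w1 := unit of Q`, `w2 := w1 ^ 2`.  Apply `const_of_rel` to `G = (ZMod r)ˣ`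
(`ZMod.card_units_eq_totient`/`ZMod.card_units`: card `= r - 1`, nonzero in `k` by `CharP.cast_eq_zero_iff` and `hpr`), `f := X.f h`,
`P z ρ := Moeb w1 z ρ ∨ Moeb w2 z ρ`; `hP` from `inv_f` (`i = 1, 2`), `hH` from `exists_pair`.  Finally `f_one`. -/
theorem SymAx.f_eq_zero (X : SymAx k N q) (hN : 0 < N) (hq : q.Prime) (hqN : Nat.Coprime q N) {r : ℕ}
    [Fact r.Prime] (hr4 : r % 4 = 3) (hrN : ¬ r ∣ N) (hrq : r ≠ q) (h : Nat.Coprime N r)
    (p : ℕ) [CharP k p] (hpr : ¬ p ∣ r - 1) (hr19 : 19 < r) (hrQ : (QQ N q) ^ 2 < r) (t : (ZMod r)ˣ) :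
    X.f h t = 0 := by
  have hrp : r.Prime := Fact.out
  have hQ1 : 1 < QQ N q := by
    unfold QQ
    apply Nat.one_lt_pow _ hq.one_lt
    have := Nat.totient_pos.2 (pow_pos hN 2)
    omega
  have hQlt : QQ N q < r := lt_of_le_of_lt (by nlinarith) hrQ
  have hcop : Nat.Coprime (QQ N q) r :=
    (Nat.coprime_of_lt_prime (by omega) hQlt hrp).symm
  obtain ⟨w1, hw1⟩ : ∃ w1 : (ZMod r)ˣ, (w1 : ZMod r) = ((QQ N q : ℕ) : ZMod r) :=
    ⟨ZMod.unitOfCoprime _ hcop, ZMod.coe_unitOfCoprime _ hcop⟩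
  have hw2 : ((w1 ^ 2 : (ZMod r)ˣ) : ZMod r) = ((QQ N q : ℕ) : ZMod r) ^ 2 := by
    rw [Units.val_pow_eq_pow_val, hw1]
  have natcast_inj : ∀ a b : ℕ, a < r → b < r → (a : ZMod r) = (b : ZMod r) → a = b := by
    intro a b ha hb hab
    have h3 := (ZMod.natCast_eq_natCast_iff' a b r).1 hab
    rwa [Nat.mod_eq_of_lt ha, Nat.mod_eq_of_lt hb] at h3
  have h1 : w1 ≠ 1 := by
    intro h0
    have h3 : ((QQ N q : ℕ) : ZMod r) = ((1 : ℕ) : ZMod r) := by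
      rw [← hw1, h0]; simp
    have := natcast_inj _ _ hQlt (by omega) h3
    omega
  have h2 : w1 ^ 2 ≠ 1 := by
    intro h0
    have h3 : (((QQ N q) ^ 2 : ℕ) : ZMod r) = ((1 : ℕ) : ZMod r) := by
      rw [Nat.cast_pow, ← hw2, h0]; simp
    have := natcast_inj _ _ hrQ (by omega) h3
    nlinarith
  have h12 : w1 ≠ w1 ^ 2 := by
    intro h0
    have h3 : ((QQ N q : ℕ) : ZMod r) = (((QQ N q) ^ 2 : ℕ) : ZMod r) := by
      rw [Nat.cast_pow, ← hw2, ← h0, hw1]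
    have := natcast_inj _ _ hQlt hrQ h3
    nlinarith
  have hcard : (Fintype.card (ZMod r)ˣ : k) ≠ 0 := by
    rw [ZMod.card_units r]
    intro h0
    exact hpr ((CharP.cast_eq_zero_iff k p _).1 h0)
  have hc := const_of_rel hcard (X.f h) (fun z ρ => Moeb w1 z ρ ∨ Moeb (w1 ^ 2) z ρ) (by
    rintro z ρ (hM | hM) t
    · exact X.inv_f hN hq hqN hr4 hrN hrq h 1 w1 (by rw [hw1, pow_one]) z ρ hM t
    · exact X.inv_f hN hq hqN hr4 hrN hrq h 2 (w1 ^ 2) hw2 z ρ hM t)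
    (fun H hH => exists_pair hr19 w1 (w1 ^ 2) h1 h2 h12 H hH) t
  rw [hc, X.f_one hrp h]

end Fermat.Agent.S41.CSP
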