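import Mathlib

/-! # S41 / CSP : first use of Dirichlet's theorem -/

namespace Fermat.Agent.S41.CSP

/-- **Dirichlet 1.**  `r ≡ 3 mod 4` prime, `m = (r-1)/2` (odd, prime to `r`).  By CRT there is a class mod `r m`
which is `σ` mod `r` and `2` mod `m`; it is a unit; `Nat.forall_exists_prime_gt_and_eq_mod` gives a prime `s1 > B`
in it; `s1 - 1 ≡ 1 mod m` so `gcd(s1 - 1, m) = 1`. -/
theorem exists_s1 {r : ℕ} (hr : r.Prime) (hr4 : r % 4 = 3) (σ : ZMod r) (hσ : σ ≠ 0) (B : ℕ) :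
    ∃ s1 : ℕ, s1.Prime ∧ B < s1 ∧ (s1 : ZMod r) = σ ∧ Nat.Coprime (s1 - 1) ((r - 1) / 2) := by
  have : NeZero r := ⟨hr.ne_zero⟩
  set m : ℕ := (r - 1) / 2 with hm
  have hm0 : m ≠ 0 := by omega
  have hmr : m < r := by omega
  have hmodd : m % 2 = 1 := by omega
  have hco : Nat.Coprime r m := Nat.coprime_of_lt_prime hm0 hmr hr
  obtain ⟨k, hk1, hk2⟩ := Nat.chineseRemainder hco σ.val 2
  have hkr : Nat.Coprime k r := by
    rw [Nat.coprime_comm, hr.coprime_iff_not_dvd]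
    intro hd
    apply hσ
    have h0 : (k : ZMod r) = 0 := (ZMod.natCast_eq_zero_iff k r).2 hd
    have h1 : (k : ZMod r) = ((σ.val : ℕ) : ZMod r) := (ZMod.natCast_eq_natCast_iff _ _ _).2 hk1
    rw [ZMod.natCast_zmod_val] at h1
    rw [← h1, h0]
  have h2m : Nat.Coprime 2 m := by
    rw [Nat.coprime_two_left]
    exact Nat.odd_iff.2 hmodd
  have hkm : Nat.Coprime k m := by
    have := hk2.gcd_eq
    rw [Nat.Coprime, this]
    exact h2m
  have hkq : Nat.Coprime k (r * m) := Nat.Coprime.mul_right hkr hkm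
  obtain ⟨p, hpB, hpp, hpk⟩ :=
    Nat.forall_exists_prime_gt_and_modEq B (q := r * m) (a := k) (Nat.mul_ne_zero hr.ne_zero hm0) hkq
  refine ⟨p, hpp, hpB, ?_, ?_⟩
  · have h1 : p ≡ σ.val [MOD r] := (hpk.of_mul_right m).trans hk1
    have h2 : (p : ZMod r) = ((σ.val : ℕ) : ZMod r) := (ZMod.natCast_eq_natCast_iff _ _ _).2 h1
    rwa [ZMod.natCast_zmod_val] at h2
  · have h1 : p ≡ 2 [MOD m] := (hpk.of_mul_left r).trans hk2
    have hp2 := hpp.two_le
    have h2 : p - 1 + 1 ≡ 1 + 1 [MOD m] := by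
      have : p - 1 + 1 = p := by omega
      rw [this]
      exact h1
    have h3 : p - 1 ≡ 1 [MOD m] := Nat.ModEq.add_right_cancel' 1 h2
    have := h3.gcd_eq
    rw [Nat.Coprime, this]
    exact Nat.gcd_one_left m

end Fermat.Agent.S41.CSP
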