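import Mathlib

/-! # S41 / CSP : second use of Dirichlet's theorem -/

namespace Fermat.Agent.S41.CSP

/-- **Dirichlet 2.**  `a'` a prime `> 4 p`, `p` an odd prime: the moduli `4, p, a'` are pairwise coprime; take the class
`3 mod 4`, `2 mod p`, `c0 mod a'` (a unit mod `4 p a'`), `Nat.forall_exists_prime_gt_and_eq_mod`. -/
theorem exists_r {p a' : ℕ} (hp : p.Prime) (hp2 : p ≠ 2) (ha' : a'.Prime) (hap : 4 * p < a') (c0 : ℤ)
    (hc0 : ¬ (a' : ℤ) ∣ c0) (B : ℕ) :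
    ∃ r : ℕ, r.Prime ∧ B < r ∧ r % 4 = 3 ∧ ¬ p ∣ r - 1 ∧ (a' : ℤ) ∣ (r : ℤ) - c0 := by
  have hp0 : p ≠ 0 := hp.ne_zero
  have ha0 : a' ≠ 0 := ha'.ne_zero
  have hpodd : Odd p := hp.odd_of_ne_two hp2
  have h2p : Nat.Coprime 2 p := Nat.coprime_two_left.2 hpodd
  have h4p : Nat.Coprime 4 p := by
    have : Nat.Coprime (2 ^ 2) p := Nat.Coprime.pow_left 2 h2p
    simpa using this
  have h4pa : Nat.Coprime (4 * p) a' :=
    (Nat.coprime_of_lt_prime (by omega) hap ha').symm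
  set c1 : ℕ := (c0 % (a' : ℤ)).toNat with hc1
  have hc1' : (c1 : ℤ) = c0 % (a' : ℤ) :=
    Int.toNat_of_nonneg (Int.emod_nonneg _ (by exact_mod_cast ha0))
  obtain ⟨k1, hk1a, hk1b⟩ := Nat.chineseRemainder h4p 3 2
  obtain ⟨k, hka, hkb⟩ := Nat.chineseRemainder h4pa k1 c1
  have hk4 : k ≡ 3 [MOD 4] := (hka.of_mul_right p).trans hk1a
  have hkp : k ≡ 2 [MOD p] := (hka.of_mul_left 4).trans hk1b
  have hco4 : Nat.Coprime k 4 := by
    rw [Nat.Coprime, hk4.gcd_eq]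
    decide
  have hcop : Nat.Coprime k p := by
    rw [Nat.Coprime, hkp.gcd_eq]
    exact h2p
  have hkc0 : (a' : ℤ) ∣ (k : ℤ) - c0 := by
    have h1 : (a' : ℤ) ∣ (k : ℤ) - (c1 : ℤ) := by
      have := (Nat.modEq_iff_dvd.1 hkb.symm)
      exact this
    have h2 : (a' : ℤ) ∣ (c1 : ℤ) - c0 := by
      rw [hc1']
      have := Int.dvd_sub_self_of_emod_eq (a := c0) (b := (a' : ℤ)) rfl
      have h3 := (dvd_neg (a := (a' : ℤ))).2 this
      rwa [neg_sub] at h3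
    have := dvd_add h1 h2
    rwa [sub_add_sub_cancel] at this
  have hcoa : Nat.Coprime k a' := by
    rw [Nat.coprime_comm, ha'.coprime_iff_not_dvd]
    intro hd
    apply hc0
    have h1 : (a' : ℤ) ∣ (k : ℤ) := by exact_mod_cast hd
    have := dvd_sub h1 hkc0
    rwa [sub_sub_cancel] at this
  have hkq : Nat.Coprime k (4 * p * a') := Nat.Coprime.mul_right (Nat.Coprime.mul_right hco4 hcop) hcoa
  obtain ⟨r, hrB, hrp, hrk⟩ :=
    Nat.forall_exists_prime_gt_and_modEq B (q := 4 * p * a') (a := k)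
      (Nat.mul_ne_zero (Nat.mul_ne_zero (by norm_num) hp0) ha0) hkq
  have hr4 : r ≡ 3 [MOD 4] := ((hrk.of_mul_right a').of_mul_right p).trans hk4
  have hrp' : r ≡ 2 [MOD p] := ((hrk.of_mul_right a').of_mul_left 4).trans hkp
  have hra : r ≡ k [MOD a'] := hrk.of_mul_left (4 * p)
  refine ⟨r, hrp, hrB, hr4, ?_, ?_⟩
  · intro hd
    have hr2 := hrp.two_le
    have h2 : r - 1 + 1 ≡ 1 + 1 [MOD p] := by
      have : r - 1 + 1 = r := by omega
      rw [this]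
      exact hrp'
    have h3 : r - 1 ≡ 1 [MOD p] := Nat.ModEq.add_right_cancel' 1 h2
    have h4 : p ∣ 1 := (h3.dvd_iff dvd_rfl).1 hd
    exact hp.one_lt.ne' (Nat.dvd_one.1 h4)
  · have h1 : (a' : ℤ) ∣ (r : ℤ) - (k : ℤ) := Nat.modEq_iff_dvd.1 hra.symm
    have := dvd_add h1 hkc0
    rwa [sub_add_sub_cancel] at this

end Fermat.Agent.S41.CSP
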