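import Fermat.Agent.S41.CSP.Const
import Fermat.Agent.S41.CSP.Dir2

/-! # S41 / CSP : end of the proof for abstract symbols -/

namespace Fermat.Agent.S41.CSP

variable {k : Type*} [Field k] {N q : ℕ}

/-- the case `c ≠ 0`.
PROOF.  `c = N c0`, `c0 ≠ 0`.  Dirichlet (`Nat.forall_exists_prime_gt_and_zmodEq` with modulus `c.natAbs`): prime `a' > 4 p` (and `> N`…) with
`a' ≡ a mod c`; `S c a = S c a'` (`SymAx.congr`), `N ∣ a' - 1`, `IsCoprime a' c` so `a' ∤ c0`.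
`exists_r` with `B = max (max 19 ((QQ N q)^2)) (max (N * q) a')`: prime `r`, `r = c0 + y a'`; `a2`: `S (N r) a' = S (c + N y a') a' = S c a'`.
`r ∤ N`, `r ≠ q`, `N.Coprime r`; `(a' : ZMod r) ≠ 0` as `0 < a' < r`.  `f_spec` + `f_eq_zero`. -/
theorem SymAx.eq_zero_of_ne (X : SymAx k N q) (hN : 0 < N) (hq : q.Prime) (hqN : Nat.Coprime q N)
    (p : ℕ) [CharP k p] (hp : p.Prime) (hp2 : p ≠ 2) (a c : ℤ) (hc0 : c ≠ 0) (hc : (N : ℤ) ∣ c)
    (hac : IsCoprime a c) (ha : (N : ℤ) ∣ a - 1) : X.S c a = 0 := by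
  obtain ⟨c0, rfl⟩ := hc
  have hcn : ((N : ℤ) * c0).natAbs ≠ 0 := Int.natAbs_ne_zero.2 hc0
  have hac' : IsCoprime a (((N : ℤ) * c0).natAbs : ℤ) := by
    rcases Int.natAbs_eq ((N : ℤ) * c0) with h | h
    · rw [← h]; exact hac
    · have : ((((N : ℤ) * c0).natAbs : ℕ) : ℤ) = -((N : ℤ) * c0) := by omega
      rw [this]; exact hac.neg_right
  obtain ⟨a', ha'B, ha'p, ha'a⟩ := Nat.forall_exists_prime_gt_and_zmodEq (4 * p) hcn hac'
  have hdvd : (N : ℤ) * c0 ∣ (a' : ℤ) - a := by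
    have h1 : ((((N : ℤ) * c0).natAbs : ℕ) : ℤ) ∣ (a' : ℤ) - a := (Int.modEq_iff_dvd.1 ha'a.symm)
    exact (Int.natAbs_dvd).1 h1
  have hS1 : X.S ((N : ℤ) * c0) a' = X.S ((N : ℤ) * c0) a := X.congr (Dvd.intro _ rfl) hac hdvd
  have ha'1 : (N : ℤ) ∣ (a' : ℤ) - 1 := by
    have h1 : (N : ℤ) ∣ (a' : ℤ) - a := (Dvd.intro _ rfl : (N : ℤ) ∣ (N : ℤ) * c0).trans hdvd
    have := dvd_add h1 ha
    have e : (a' : ℤ) - a + (a - 1) = (a' : ℤ) - 1 := by ring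
    rwa [e] at this
  have ha'c : IsCoprime (a' : ℤ) ((N : ℤ) * c0) := by
    obtain ⟨x, hx⟩ := hdvd
    have e : (a' : ℤ) = a + x * ((N : ℤ) * c0) := by linarith
    rw [e]
    exact (IsCoprime.add_mul_right_left_iff).2 hac
  have hc00 : c0 ≠ 0 := by
    rintro rfl
    simp at hc0
  have ha'c0 : ¬ (a' : ℤ) ∣ c0 := by
    intro hd
    have h1 : IsCoprime (a' : ℤ) c0 := ha'c.of_mul_right_right
    have h2 : IsUnit (a' : ℤ) := h1.isUnit_of_dvd' dvd_rfl hd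
    have h3 := Int.isUnit_iff_natAbs_eq.1 h2
    have h4 := ha'p.one_lt
    simp at h3
    omega
  obtain ⟨r, hrp, hrB, hr4, hpr, hra⟩ :=
    exists_r hp hp2 ha'p ha'B c0 ha'c0 (max (max 19 ((QQ N q) ^ 2)) (max (N * q) a'))
  have hr19 : 19 < r := lt_of_le_of_lt ((le_max_left _ _).trans (le_max_left _ _)) hrB
  have hrQ : (QQ N q) ^ 2 < r := lt_of_le_of_lt ((le_max_right _ _).trans (le_max_left _ _)) hrB
  have hrNq : N * q < r := lt_of_le_of_lt ((le_max_left _ _).trans (le_max_right _ _)) hrB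
  have hra' : a' < r := lt_of_le_of_lt ((le_max_right _ _).trans (le_max_right _ _)) hrB
  have hNr : N < r := lt_of_le_of_lt (Nat.le_mul_of_pos_right N hq.pos) hrNq
  have hqr : q < r := lt_of_le_of_lt (Nat.le_mul_of_pos_left q hN) hrNq
  have hrN : ¬ r ∣ N := fun h => by
    have := Nat.le_of_dvd hN h
    omega
  have hrq : r ≠ q := by omega
  have h : Nat.Coprime N r := ((Nat.coprime_comm).1 ((hrp.coprime_iff_not_dvd).2 hrN))
  have : Fact r.Prime := ⟨hrp⟩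
  obtain ⟨y, hy⟩ := hra
  have hS2 : X.S ((N : ℤ) * r) a' = X.S ((N : ℤ) * c0) a' := by
    have e : (N : ℤ) * r = (N : ℤ) * c0 + N * y * a' := by
      have : (r : ℤ) = c0 + a' * y := by linarith
      rw [this]; ring
    rw [e]
    exact X.a2 a' _ y (Dvd.intro _ rfl) ha'c
  have ha'r : ((a' : ℤ) : ZMod r) ≠ 0 := by
    intro h0
    have h1 : (r : ℤ) ∣ (a' : ℤ) := (ZMod.intCast_zmod_eq_zero_iff_dvd _ r).1 h0
    have h2 : r ∣ a' := by exact_mod_cast h1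
    have := Nat.le_of_dvd ha'p.pos h2
    omega
  have hS3 : X.S ((N : ℤ) * r) a' = X.f h (Units.mk0 _ ha'r) := X.f_spec hrp h ha'1 _ rfl
  rw [← hS1, ← hS2, hS3]
  exact X.f_eq_zero hN hq hqN hr4 hrN hrq h p hpr hr19 hrQ _

/-- **CSP-lite for abstract symbols.** -/
theorem SymAx.eq_zero (X : SymAx k N q) (hN : 0 < N) (hq : q.Prime) (hqN : Nat.Coprime q N)
    (p : ℕ) [CharP k p] (hp : p.Prime) (hp2 : p ≠ 2) (a c : ℤ) (hc : (N : ℤ) ∣ c)
    (hac : IsCoprime a c) (ha : (N : ℤ) ∣ a - 1) : X.S c a = 0 := by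
  by_cases hc0 : c = 0
  · subst hc0
    have ha0 : a ≠ 0 := by
      rintro rfl
      exact not_isCoprime_zero_zero hac
    have h2 := X.a2 a 0 1 hc hac
    rw [← h2]
    have hN' : (N : ℤ) ≠ 0 := by exact_mod_cast hN.ne'
    refine X.eq_zero_of_ne hN hq hqN p hp hp2 a _ ?_ ?_ ?_ ha
    · simpa using ⟨hN.ne', ha0⟩
    · exact ⟨a, by ring⟩
    · have hu : IsUnit a := isCoprime_zero_right.mp hac
      obtain ⟨u, rfl⟩ := hu
      exact ⟨((u⁻¹ : ℤˣ) : ℤ), 0, by simp⟩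
  · exact X.eq_zero_of_ne hN hq hqN p hp hp2 a c hc0 hc hac ha

end Fermat.Agent.S41.CSP
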