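import Mathlib

/-!
# S41 / CSP : abstract Mennicke-type symbols (blueprint = report 385 of helper25)

`S c a = [c;a]` is the value of a homomorphism `Φ : Γ₀(N) → k` (killing `u(1)` and `l(N)`) on any
matrix with first column `(a,c)`.  The five axioms below are all that the proof of CSP-lite uses.
-/

namespace Fermat.Agent.S41.CSP

/-- abstract symbol of level `N` with the unit `q`. -/
structure SymAx (k : Type*) [Field k] (N q : ℕ) where
  S : ℤ → ℤ → k
  τ : k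
  a1 : ∀ a c x : ℤ, (N : ℤ) ∣ c → IsCoprime a c → S c (a + x * c) = S c a
  a2 : ∀ a c y : ℤ, (N : ℤ) ∣ c → IsCoprime a c → S (c + N * y * a) a = S c a
  a3 : ∀ c : ℤ, (N : ℤ) ∣ c → S c 1 = 0
  a4 : ∀ a c : ℤ, (N : ℤ) ∣ c → IsCoprime a c → IsCoprime (q : ℤ) c →
    S c ((q : ℤ) ^ 2 * a) = S c a + τ
  a5 : ∀ α a' c s : ℤ, (N : ℤ) ∣ c → IsCoprime α c → IsCoprime a' c →
    c ∣ a' * (1 + α * s) - α → S (c * s) (1 + α * s) = S c α - S c a'

variable {k : Type*} [Field k] {N q : ℕ}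

/-- `S c a` only depends on `a` modulo `c`. -/
theorem SymAx.congr (X : SymAx k N q) {a a' c : ℤ} (hc : (N : ℤ) ∣ c) (ha : IsCoprime a c)
    (h : c ∣ a' - a) : X.S c a' = X.S c a := by
  obtain ⟨x, hx⟩ := h
  have : a' = a + x * c := by linarith
  rw [this, X.a1 a c x hc ha]

/-- iterated unit relation. -/
theorem SymAx.a4_iter (X : SymAx k N q) {a c : ℤ} (hc : (N : ℤ) ∣ c) (ha : IsCoprime a c)
    (hq : IsCoprime (q : ℤ) c) (J : ℕ) :
    X.S c ((q : ℤ) ^ (2 * J) * a) = X.S c a + J • X.τ := by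
  induction J with
  | zero => simp
  | succ J ih =>
    have h1 : (q : ℤ) ^ (2 * (J + 1)) * a = (q : ℤ) ^ 2 * ((q : ℤ) ^ (2 * J) * a) := by ring
    have h2 : IsCoprime ((q : ℤ) ^ (2 * J) * a) c := (hq.pow_left).mul_left ha
    rw [h1, X.a4 _ c hc h2 hq, ih, succ_nsmul, add_assoc]

end Fermat.Agent.S41.CSP
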